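import Fermat.Agent.S41.Glue
import Fermat.Agent.S41.H281.HK
import Fermat.Agent.S41.H585.PDMain
import Fermat.Agent.S41.H161.IK.IharaEigen
import Fermat.Agent.S41.H341.Occ
import Fermat.Agent.S41.H401.DS
import Fermat.Agent.S41.H881.New

/-!
# S41 — pre-assembly (helper161): everything except CORE

`s41_of_core : Spec.RibetCoreStatement → (statement of S41)`: the glue `s41_of_blocks` (helper41)
applied to the sixteen landed blocks (HK ×9, PD, LIFT, FREE, IH, OCC, DS, NEW).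
-/

set_option autoImplicit false

open WeierstrassCurve WeierstrassCurve.Affine WeierstrassCurve.Affine.Point
open scoped CongruenceSubgroup MatrixGroups

namespace Fermat.Agent.S41.H161

open Fermat.Agent.S41.Spec

theorem s41_of_core (hCore : RibetCoreStatement)
    (E : WeierstrassCurve ℚ) [E.IsElliptic] {W : WeierstrassCurve ℤ} (hW : W.IsIntegralModelOf E)
    {p N q' : ℕ} (hp : p.Prime) (hp2 : p ≠ 2) (hN : 0 < N) (hq' : q'.Prime) (hq'N : ¬ q' ∣ N)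
    (hq'p : q' ≠ p)
    (hirr : GaloisRepIsIrreducible (K := AlgebraicClosure ℚ) ℚ E p)
    (f : CuspForm (CongruenceSubgroup.Gamma0 N) 2) (𝔪 : Ideal (integralClosure ℤ ℂ))
    (hf : f.IsNormalizedEigenform) (hmax : 𝔪.IsMaximal) (hpm : (p : integralClosure ℤ ℂ) ∈ 𝔪)
    (hcong : ∀ ℓ : ℕ, ℓ.Prime → W.IsGoodPrimeFor ℓ → ¬ ℓ ∣ N → ℓ ≠ p →
      ∃ a : integralClosure ℤ ℂ, (a : ℂ) = ModularFormClass.qCoeff f ℓ ∧
        a - ((W.apOfModel ℓ : ℤ) : integralClosure ℤ ℂ) ∈ 𝔪)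
    (hLR : ∃ a : integralClosure ℤ ℂ, (a : ℂ) = ModularFormClass.qCoeff f q' ∧
      a ^ 2 - ((q' : integralClosure ℤ ℂ) + 1) ^ 2 ∈ 𝔪) :
    ∃ (g : CuspForm (CongruenceSubgroup.Gamma0 (N * q')) 2) (𝔪' : Ideal (integralClosure ℤ ℂ)),
      g.IsNormalizedEigenform ∧ 𝔪'.IsMaximal ∧ (p : integralClosure ℤ ℂ) ∈ 𝔪' ∧
      (∀ ℓ : ℕ, ℓ.Prime → W.IsGoodPrimeFor ℓ → ¬ ℓ ∣ N * q' → ℓ ≠ p →
        ∃ a : integralClosure ℤ ℂ, (a : ℂ) = ModularFormClass.qCoeff g ℓ ∧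
          a - ((W.apOfModel ℓ : ℤ) : integralClosure ℤ ℂ) ∈ 𝔪') ∧
      g.IsNewAt q' := by
  obtain ⟨h1, h2, h3, h4, h5, h6, h7, h8, h9⟩ := Fermat.Agent.S41.H281.hkStatement.{0}
  exact Fermat.Agent.S41.s41_of_blocks h1 h2 h3 h4 h5 h6 h7 h8 h9
    Fermat.Agent.S41.H585.pdHecke.{0} Fermat.Agent.S41.H585.lift Fermat.Agent.S41.H585.cuspFree
    iharaEigen_h161 Fermat.Agent.S41.H341.occ hCore Fermat.Agent.S41.H401.ds
    Fermat.Agent.S41.H881.newBlock E hW hp hp2 hN hq' hq'N hq'p hirr f 𝔪 hf hmax hpm hcong hLR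

end Fermat.Agent.S41.H161
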